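import Fermat.Agent.H84.MWDiv.Interfaces2
import Fermat.Agent.H23.EsA.JTors

/-!
# P-MW / MW-A1-DESC: division points descend from `ℂ` to `ℚ̄`

* `divisionDescent_of_parts`, `divisionDescent : DivisionDescentStatement` (abstract form);
* `descentDiv N : DescentDivStatement N`.
-/

set_option autoImplicit false
set_option linter.style.haveILetI false

noncomputable section

open AlgebraicCurve IntermediateField

namespace Fermat.Agent.H87.MWDiv

open Fermat.Agent.H29

section Abstract

variable {k K Fk FK : Type} [Field k] [Field K] [Field Fk] [Field FK]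
  [Algebra k Fk] [Algebra K FK]

/-- The Galois group fixes base changed divisors. -/
theorem galois_smul_divisorBC (h2c : PlaceExtUniqueStatement)
    [IsAlgClosed k] [CharZero k] [IsAlgClosed K] [CharZero K]
    (E : ConstExt k K Fk FK) (Gd : GaloisData E)
    (ext : Place k Fk → Place K FK) (hext : IsPlaceExt E ext) (g : Gd.G) (A : Divisor k Fk) :
    Gd.ρ g • divisorBC ext A = divisorBC ext A :=
  galois_smul_divisor_of_support h2c E Gd ext hext g _ (fun w hw => by
    by_contra hw'
    exact hw (Finsupp.mapDomain_of_notMem_range A w hw'))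

/-- If `m D' - bc(D₀)` is principal, the Galois translates of the class of `D'` differ from it
by `m`-torsion classes. -/
theorem galois_smul_sub_mem_torsion (h2c : PlaceExtUniqueStatement)
    [IsAlgClosed k] [CharZero k] [IsAlgClosed K] [CharZero K]
    (E : ConstExt k K Fk FK) (Gd : GaloisData E)
    (ext : Place k Fk → Place K FK) (hext : IsPlaceExt E ext) (m : ℕ)
    (D₀ : Divisor k Fk) (z₀ : Divisor.degZero (K := K) (F := FK))
    (hm : Divisor.IsPrincipal (m • (z₀ : Divisor K FK) - divisorBC ext D₀)) (g : Gd.G) :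
    Gd.ρ g • Pic0.mk z₀ - Pic0.mk z₀ ∈ Pic0.torsion K FK m := by
  rw [Pic0.mem_torsion, SemilinearAut.pic0_smul_mk]
  have h1 : ((m : ℤ) • (Pic0.mk (SemilinearAut.degZeroSMulHom (Gd.ρ g) z₀) - Pic0.mk z₀) :
      Pic0 K FK) = Pic0.mk ((m : ℤ) • (SemilinearAut.degZeroSMulHom (Gd.ρ g) z₀ - z₀)) := rfl
  rw [h1, pic0_mk_eq_zero_iff]
  have e1 : Gd.ρ g • (m • (z₀ : Divisor K FK) - divisorBC ext D₀) =
      m • (Gd.ρ g • (z₀ : Divisor K FK)) - divisorBC ext D₀ := by
    rw [smul_sub (Gd.ρ g), galois_smul_divisorBC h2c E Gd ext hext g D₀, smul_comm (Gd.ρ g) m]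
  have h2 : (((m : ℤ) • (SemilinearAut.degZeroSMulHom (Gd.ρ g) z₀ - z₀) :
      Divisor.degZero (K := K) (F := FK)) : Divisor K FK) =
      Gd.ρ g • (m • (z₀ : Divisor K FK) - divisorBC ext D₀) -
        (m • (z₀ : Divisor K FK) - divisorBC ext D₀) := by
    rw [e1, AddSubgroup.coe_zsmul, AddSubgroup.coe_sub, SemilinearAut.coe_degZeroSMulHom,
      natCast_zsmul, smul_sub]
    abel
  rw [h2]
  exact (Divisor.principal (K := K) (F := FK)).sub_mem
    (SemilinearAut.smul_mem_principal _ hm) hm

/-- **[A1-DESC-ABS]** abstract descent of division points, from the ES-B parts. -/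
theorem divisionDescent_of_parts
    (h2c : PlaceExtUniqueStatement) (h4 : DivisorBCStatement)
    (h6 : MinimalBStatement) (h7 : ExistsBStatement) (h8 : FiniteOrbitStatement) :
    Fermat.Agent.H84.MWDiv.DivisionDescentStatement := by
  classical
  intro k K Fk FK _ _ _ _ _ _ _ _ _ _ E Gd ext hext m hm hfin D₀ D' hD'0 hD'm
  obtain ⟨hdeg, hdiv⟩ := h4 k K Fk FK E ext hext
  have hextinj : Function.Injective ext := isPlaceExt_injective E ext hext
  -- (b) the minimal auxiliary divisor
  obtain ⟨B₀, hB₀, f₀, hf₀, hf₀L⟩ := h7 k K Fk FK E ext hext D'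
  have hBC_apply : ∀ (A : Divisor k Fk) (v : Place k Fk), divisorBC ext A (ext v) = A v :=
    fun A v => Finsupp.mapDomain_apply hextinj A v
  have hBC_notin : ∀ (A : Divisor k Fk) (w : Place K FK), w ∉ Set.range ext →
      divisorBC ext A w = 0 := fun A w hw => Finsupp.mapDomain_of_notMem_range A w hw
  obtain ⟨B, hB, hBS, f, hf, hfL, huniq⟩ :=
    h6 K FK (E.bc E.x) E.bcx_transc E.bcx_fin (Set.range ext) D' hD'0
      ⟨divisorBC ext B₀, by
        intro w
        by_cases hw : w ∈ Set.range ext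
        · obtain ⟨v, rfl⟩ := hw
          rw [hBC_apply]
          exact hB₀ v
        · rw [hBC_notin B₀ w hw]
          rfl, by
        intro w hw
        by_contra hw'
        exact hw (hBC_notin B₀ w hw'), f₀, hf₀, hf₀L⟩
  -- (a) the stabiliser of the class
  set z₀ : Divisor.degZero (K := K) (F := FK) := ⟨D', hD'0⟩ with hz₀
  letI : MulAction Gd.G (Pic0 K FK) := MulAction.compHom _ Gd.ρ
  have hsmul : ∀ (g : Gd.G) (z : Pic0 K FK), g • z = Gd.ρ g • z := fun _ _ => rfl
  have horb : (MulAction.orbit Gd.G (Pic0.mk z₀)).Finite := by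
    haveI := hfin
    refine ((Set.toFinite (Pic0.torsion K FK m : Set (Pic0 K FK))).image
      (fun t : Pic0 K FK => t + Pic0.mk z₀)).subset ?_
    rintro _ ⟨g, rfl⟩
    refine ⟨Gd.ρ g • Pic0.mk z₀ - Pic0.mk z₀,
      galois_smul_sub_mem_torsion h2c E Gd ext hext m D₀ z₀ hD'm g, ?_⟩
    show Gd.ρ g • Pic0.mk z₀ - Pic0.mk z₀ + Pic0.mk z₀ = g • Pic0.mk z₀
    rw [sub_add_cancel, hsmul]
  set H : Subgroup Gd.G := MulAction.stabilizer Gd.G (Pic0.mk z₀) with hH
  have hHfin : H.FiniteIndex := by
    rw [Subgroup.finiteIndex_iff, hH, MulAction.index_stabilizer]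
    exact Set.ncard_ne_zero_of_mem (MulAction.mem_orbit_self _) horb
  have hHz : ∀ g ∈ H, Gd.ρ g • Pic0.mk z₀ = Pic0.mk z₀ := by
    intro g hg
    exact hg
  -- (c) the canonical divisor in the class
  obtain ⟨Df, hDf, hDfdeg⟩ := exists_principal_divisor (E.bc E.x) E.bcx_transc E.bcx_fin f hf
  set Edv : Divisor K FK := Df + D' + B with hEdv
  -- (d) it is stable under the stabiliser
  have hkey : ∀ g ∈ H, Gd.ρ g • Edv = Edv := by
    intro g hg
    set γ := Gd.ρ g with hγ
    have hprin : Divisor.IsPrincipal (γ • D' - D') := by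
      have h1 := hHz g hg
      rw [SemilinearAut.pic0_smul_mk, pic0_mk_eq_mk_iff] at h1
      exact h1
    obtain ⟨u, hu, hudiv⟩ := hprin
    have hγB : γ • B = B := galois_smul_divisor_of_support h2c E Gd ext hext g B hBS
    have hγf : γ • f ≠ 0 := by
      rw [SemilinearAut.smul_def]
      exact (map_ne_zero _).mpr hf
    have hordγ : ∀ w : Place K FK, w.ord (γ • f) = (γ⁻¹ • w).ord f := by
      intro w
      have h := SemilinearAut.ord_smul γ (γ⁻¹ • w) f
      rwa [smul_inv_smul] at h
    have hfw : ∀ w : Place K FK, -(D' w + B w) ≤ w.ord f := by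
      intro w
      have h := (mem_riemannRochSpace_iff.mp hfL) w
      rcases h with h | h
      · exact absurd h hf
      · simpa using h
    have hmem : (γ • f) * u ∈ riemannRochSpace (D' + B) := by
      rw [mem_riemannRochSpace_iff]
      intro w
      right
      rw [Place.ord_mul _ hγf hu, hordγ, ← hudiv w]
      have h1 := hfw (γ⁻¹ • w)
      have h2 : (γ • D') w = D' (γ⁻¹ • w) := SemilinearAut.divisor_smul_apply γ D' w
      have h3 : (γ • B) w = B (γ⁻¹ • w) := SemilinearAut.divisor_smul_apply γ B w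
      rw [hγB] at h3
      simp only [Finsupp.coe_add, Finsupp.coe_sub, Pi.add_apply, Pi.sub_apply]
      rw [h2]
      omega
    obtain ⟨c, hc⟩ := huniq _ hmem
    have hc0 : c ≠ 0 := by
      rintro rfl
      rw [map_zero, zero_mul] at hc
      exact mul_ne_zero hγf hu hc
    have hord : ∀ w : Place K FK, w.ord (γ • f) + w.ord u = w.ord f := by
      intro w
      have h1 := congrArg w.ord hc
      rw [Place.ord_mul _ hγf hu,
        Place.ord_mul _ ((map_ne_zero (algebraMap K FK)).mpr hc0) hf,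
        Fermat.Agent.H12.ord_algebraMap, zero_add] at h1
      exact h1
    ext w
    rw [SemilinearAut.divisor_smul_apply]
    have h2 : (γ • D') w = D' (γ⁻¹ • w) := SemilinearAut.divisor_smul_apply γ D' w
    have h3 : (γ • B) w = B (γ⁻¹ • w) := SemilinearAut.divisor_smul_apply γ B w
    rw [hγB] at h3
    have h4 := hord w
    have h5 := hudiv w
    rw [hordγ] at h4
    simp only [hEdv, Finsupp.coe_add, Finsupp.coe_sub, Pi.add_apply, Pi.sub_apply, hDf] at h5 ⊢
    rw [h2] at h5
    omega
  -- (e) its support consists of rational places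
  have hEsupp : ∀ w : Place K FK, Edv w ≠ 0 → w ∈ Set.range ext := by
    intro w hw
    have horb' : {w' : Place K FK | ∃ g ∈ H, Gd.ρ g • w = w'}.Finite := by
      refine (Edv.support.finite_toSet).subset ?_
      rintro w' ⟨g, hg, rfl⟩
      rw [Finset.mem_coe, Finsupp.mem_support_iff]
      have h1 := SemilinearAut.divisor_smul_apply_smul (Gd.ρ g) Edv w
      rw [hkey g hg] at h1
      rw [h1]
      exact hw
    obtain ⟨v, hv⟩ := h8 k K Fk FK E Gd H hHfin w horb'
    exact ⟨v, h2c k K Fk FK E v (ext v) w (hext v) hv⟩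
  -- (f) descend
  have hE₁ : divisorBC ext (Finsupp.comapDomain ext Edv hextinj.injOn) = Edv :=
    Finsupp.mapDomain_comapDomain ext hextinj Edv (by
      intro w hw
      rw [Finset.mem_coe, Finsupp.mem_support_iff] at hw
      exact hEsupp w hw)
  have hB₁ : divisorBC ext (Finsupp.comapDomain ext B hextinj.injOn) = B :=
    Finsupp.mapDomain_comapDomain ext hextinj B (by
      intro w hw
      rw [Finset.mem_coe, Finsupp.mem_support_iff] at hw
      exact hBS w hw)
  set D : Divisor k Fk :=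
    Finsupp.comapDomain ext Edv hextinj.injOn - Finsupp.comapDomain ext B hextinj.injOn with hD
  have hDbc : divisorBC ext D = Df + D' := by
    rw [hD, map_sub, hE₁, hB₁, hEdv]
    abel
  have hDfprin : Df ∈ Divisor.principal (K := K) (F := FK) := ⟨f, hf, hDf⟩
  refine ⟨D, ?_, ?_⟩
  · rw [← hdeg D, hDbc, map_add, hDfdeg, hD'0, add_zero]
  · rw [hDbc]
    have : D' - (Df + D') = -Df := by abel
    rw [this]
    exact (Divisor.principal (K := K) (F := FK)).neg_mem hDfprin

end Abstract

/-- **[A1-DESC-ABS]** abstract descent of division points along a constant field extension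
(unconditional). -/
theorem divisionDescent : Fermat.Agent.H84.MWDiv.DivisionDescentStatement :=
  divisionDescent_of_parts placeExtUniqueStatement divisorBCStatement minimalBStatement
    existsBStatement finiteOrbitStatement

/-- **[A1-DESC]** division points descend from `ℂ` to `ℚ̄`: if `Pic⁰(ℂ(X₀(N)))` is
`n`-divisible, so is `J₀(N)(ℚ̄)`. -/
theorem descentDiv (N : ℕ) [NeZero N] : Fermat.Agent.H84.MWDiv.DescentDivStatement N := by
  intro n hn hC x
  obtain ⟨E, -, -, Gd, -⟩ := laurentInstanceStatement N Fermat.Agent.H23.EsA.embQBar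
  obtain ⟨ext, hext, -⟩ := placeExtStatement _ _ _ _ E
  obtain ⟨φ, -, hmk, hdeg, hinj, -⟩ := abstract_descent placeExtUniqueStatement
    rationalPlaceStatement divisorBCStatement injectivityStatement surjectivityStatement
    E Gd ext hext
  obtain ⟨D₀, rfl⟩ := Pic0.mk_surjective x
  obtain ⟨y', hy'⟩ := hC (φ (Pic0.mk D₀))
  obtain ⟨D', rfl⟩ := Pic0.mk_surjective y'
  have hD₀' : divisorBC ext (D₀ : Divisor (AlgebraicClosure ℚ)
      ↥(ModularCurve.modularFunctionFieldBar N)) ∈ Divisor.degZero (K := ℂ) (F := ↥(FC N)) := by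
    rw [Divisor.mem_degZero, hdeg]
    exact D₀.2
  have hφD₀ : φ (Pic0.mk D₀) = Pic0.mk ⟨divisorBC ext D₀, hD₀'⟩ := hmk D₀.1 D₀.2 hD₀'
  have h1 : Divisor.IsPrincipal (n • (D' : Divisor ℂ ↥(FC N)) - divisorBC ext D₀) := by
    rw [hφD₀] at hy'
    have h2 : (n • Pic0.mk D' : Pic0 ℂ ↥(FC N)) = Pic0.mk (n • D') := rfl
    rw [h2, pic0_mk_eq_mk_iff] at hy'
    exact hy'
  obtain ⟨D, hD0, hDD'⟩ := divisionDescent _ _ _ _ E Gd ext hext n hn
    (Fermat.Agent.H23.EsA.finite_torsion_pic0 N hn) D₀ D' D'.2 h1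
  have hD' : divisorBC ext D ∈ Divisor.degZero (K := ℂ) (F := ↥(FC N)) := by
    rw [Divisor.mem_degZero, hdeg]
    exact hD0
  have hφD : φ (Pic0.mk ⟨D, hD0⟩) = Pic0.mk D' := by
    rw [hmk D hD0 hD', pic0_mk_eq_mk_iff]
    have : divisorBC ext D - (D' : Divisor ℂ ↥(FC N)) =
        -((D' : Divisor ℂ ↥(FC N)) - divisorBC ext D) := by abel
    rw [this]
    exact (Divisor.principal (K := ℂ) (F := ↥(FC N))).neg_mem hDD'
  refine ⟨Pic0.mk ⟨D, hD0⟩, hinj ?_⟩
  rw [map_nsmul, hφD, hy']

end Fermat.Agent.H87.MWDiv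

end
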