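import Fermat.Agent.H96.EisTwistedH23
import Fermat.Agent.H84.MWDiv.Interfaces

/-!
# P-MW / MW-A1-EIS: unitary characters are characters of holomorphic functions of moderate growth

`unitaryEis N : Fermat.Agent.H84.MWDiv.UnitaryEisStatement N`, from the landed twisted
Eisenstein function `Fermat.Agent.H96.twistedFunction` (which is already stated for unitary
characters).
-/

set_option autoImplicit false

noncomputable section

open UpperHalfPlane Filter Topology CongruenceSubgroup
open scoped MatrixGroups Manifold

namespace Fermat.Agent.H87.MWDiv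

/-- **[A1-EIS]** every unitary parabolic-elliptic trivial character of `Γ₀(N)` is the character
of a nonzero holomorphic function of moderate growth. -/
theorem unitaryEis (N : ℕ) [NeZero N] : Fermat.Agent.H84.MWDiv.UnitaryEisStatement N := by
  intro ψ hψ hU
  obtain ⟨G, hG, hG0, hgrow, hchar⟩ := Fermat.Agent.H96.twistedFunction N ψ hU
    (fun γ hγ => hψ γ (Fermat.Agent.H96.abs_trace_le_two_of_lower_left_zero _ hγ))
  refine ⟨G, hG, hG0, hchar, fun γ => ?_⟩
  obtain ⟨M, C, Y, -, h⟩ := hgrow γ
  exact ⟨M, C, Y, h⟩

end Fermat.Agent.H87.MWDiv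

end
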